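/-
ORD (S33), brick Z, layers Z2 + Z3 — helper40.

From the trace identities at all points `T → T ⧸ P` (`P` a minimal prime) to the ordinarity of `H.ρ`:

* `traceIdent_of_forall_pt` : `T` is reduced (A2), so the identities `(I1)`, `(I2)` hold for `H.ρ`
  as soon as they hold for every `pt P H`;
* `isOrdinaryAt_of_forall_pt` : with A0 (`det = cyclotomic`), `InertiaCyclo91` (an inertia element
  `σ₀` acting on `μ_p` by squaring, so that `det ρ σ₀ - 1 ≡ 1`) and A4 (`OrdOfIdentSpec92`), the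
  frozen conclusion `H.ρ.IsOrdinaryAt p`.
-/
import Mathlib
import Fermat.Agent.ORD.Spec.Spec40
import Fermat.Agent.ORD.Alg.PointsOfT83
import Fermat.Agent.ORD.Alg.OrdOfIdentSpec92
import Fermat.Agent.ORD.Alg.DetCyclo95
import Fermat.Agent.ES.GAL.InertiaCyclo91

set_option autoImplicit false
set_option linter.unusedSectionVars false
set_option linter.style.haveILetI false

noncomputable section

namespace Fermat.Agent.ORD.Glue.PointsToOrd40

open Fermat.Agent.ORD.Alg.CHFunctional40 Fermat.Agent.ORD.Spec.Spec40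
  Fermat.Agent.ORD.Alg.PointsOfT83 Fermat.Agent.ORD.Alg

local notation "Qb" => AlgebraicClosure ℚ
local notation "GQ" => (AlgebraicClosure ℚ ≃ₐ[ℚ] AlgebraicClosure ℚ)

variable {p : ℕ} {N : ℕ} [NeZero N] {S : Finset ℕ}
  {𝒪 : Type} [CommRing 𝒪] [IsDomain 𝒪] [IsDiscreteValuationRing 𝒪]
  [IsAdicComplete (IsLocalRing.maximalIdeal 𝒪) 𝒪]
  {θ : CuspForm.heckeAlgebra N 2 (↑S : Set ℕ) →+* IsLocalRing.ResidueField 𝒪}
  {T : Type} [CommRing T] [IsLocalRing T] [IsNoetherianRing T]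
  [IsAdicComplete (IsLocalRing.maximalIdeal T) T] [Algebra 𝒪 T] [IsLocalHom (algebraMap 𝒪 T)]
  [Module.Finite 𝒪 T] [Module.Free 𝒪 T]

/-- `trOf` and `detOf` of a point are the images of those of `H.ρ`. -/
theorem trOf_pt (P : Ideal T) [P.IsPrime] (H : CuspForm.HeckeGaloisRepDatum N (↑S : Set ℕ) 𝒪 θ T)
    (g : GQ) : trOf (pt P H).ρ g = Ideal.Quotient.mk P (trOf H.ρ.ρ g) :=
  trace_pt P H g

theorem detOf_pt (P : Ideal T) [P.IsPrime] (H : CuspForm.HeckeGaloisRepDatum N (↑S : Set ℕ) 𝒪 θ T)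
    (g : GQ) : detOf (pt P H).ρ g = Ideal.Quotient.mk P (detOf H.ρ.ρ g) :=
  det_pt P H g

theorem Dfun_pt (P : Ideal T) [P.IsPrime] (H : CuspForm.HeckeGaloisRepDatum N (↑S : Set ℕ) 𝒪 θ T)
    (σ₀ g : GQ) :
    Dfun (trOf (pt P H).ρ) (detOf (pt P H).ρ) σ₀ g =
      Ideal.Quotient.mk P (Dfun (trOf H.ρ.ρ) (detOf H.ρ.ρ) σ₀ g) := by
  unfold Dfun
  rw [trOf_pt, trOf_pt, detOf_pt, map_sub, map_mul]

/-- **Z2**: the trace identities for `H.ρ` follow from the trace identities at all points. -/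
theorem traceIdent_of_forall_pt [CharZero 𝒪] (hNS : ∀ q : ℕ, q.Prime → q ∣ N → q ∈ S)
    (H : CuspForm.HeckeGaloisRepDatum N (↑S : Set ℕ) 𝒪 θ T) (I D : Subgroup GQ) (σ₀ : GQ)
    (h : ∀ (P : Ideal T) (hP : P ∈ minimalPrimes T),
      haveI := RedT83.isPrime_of_mem_minimalPrimes hP
      TraceIdent (pt P H).ρ I D σ₀) :
    TraceIdent H.ρ.ρ I D σ₀ := by
  refine ⟨fun g hg => ?_, fun g hg g' => ?_⟩
  · apply ident_of_forall_pt hNS H
    intro P hP
    haveI := RedT83.isPrime_of_mem_minimalPrimes hP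
    have h1 := (h P hP).1 g hg
    rw [trOf_pt, detOf_pt] at h1
    rw [h1, map_add, map_one]
  · apply ident_of_forall_pt hNS H
    intro P hP
    haveI := RedT83.isPrime_of_mem_minimalPrimes hP
    have h2 := (h P hP).2 g hg g'
    rw [Dfun_pt, Dfun_pt, Dfun_pt, detOf_pt] at h2
    rw [map_mul, map_sub, map_one, map_mul]
    exact h2

/-- an inertia element `σ₀` at `P` acting on `μ_p` by squaring has `det ρ σ₀ - 1` a unit. -/
theorem isUnit_det_sub_one (hp : p.Prime) (hp𝒪 : (p : 𝒪) ∈ IsLocalRing.maximalIdeal 𝒪)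
    (H : CuspForm.HeckeGaloisRepDatum N (↑S : Set ℕ) 𝒪 θ T) (σ₀ : GQ)
    (hσ₀ : ∀ η : Qb, η ^ p ^ 1 = 1 → σ₀ η = η ^ 2) :
    IsUnit (LinearMap.det (H.ρ.ρ σ₀) - 1) := by
  have hdet := (DetCyclo95.detIsCyclotomic hp hp𝒪 H).2 1 σ₀ 2 hσ₀
  have hpT : (p : T) ∈ IsLocalRing.maximalIdeal T := (DetCyclo95.detIsCyclotomic hp hp𝒪 H).1
  rw [Ideal.mem_span_singleton] at hdet
  obtain ⟨c, hc⟩ := hdet
  have h1 : LinearMap.det (H.ρ.ρ σ₀) - 1 = 1 + (p : T) * c := by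
    have : ((p ^ 1 : ℕ) : T) = (p : T) := by rw [pow_one]
    rw [this] at hc
    have h2 : LinearMap.det (H.ρ.ρ σ₀) = ((2 : ℕ) : T) + (p : T) * c := by
      rw [← hc]; ring
    rw [h2]
    push_cast
    ring
  rw [h1]
  by_contra hnu
  have hmem : (1 : T) + (p : T) * c ∈ IsLocalRing.maximalIdeal T :=
    (IsLocalRing.mem_maximalIdeal _).mpr hnu
  have h3 : (1 : T) ∈ IsLocalRing.maximalIdeal T := by
    have := (IsLocalRing.maximalIdeal T).sub_mem hmem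
      ((IsLocalRing.maximalIdeal T).mul_mem_right c hpT)
    simp at this
  exact (IsLocalRing.maximalIdeal.isMaximal T).ne_top
    ((Ideal.eq_top_iff_one _).mpr h3)

/-- **Z2 + Z3**: if for every valuation subring `P` over `p` and every inertia element `σ₀` at `P`
acting on `μ_p` by squaring, the trace identities hold at all points of `T`, then `H.ρ` is ordinary
at `p`. -/
theorem isOrdinaryAt_of_forall_pt [CharZero 𝒪] (hp : p.Prime) (hp2 : p ≠ 2)
    (hp𝒪 : (p : 𝒪) ∈ IsLocalRing.maximalIdeal 𝒪)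
    (hNS : ∀ q : ℕ, q.Prime → q ∣ N → q ∈ S)
    (H : CuspForm.HeckeGaloisRepDatum N (↑S : Set ℕ) 𝒪 θ T)
    (h : ∀ (V : ValuationSubring Qb), V.LiesOverPrime p → ∀ σ₀ ∈ V.inertiaSubgroupIn ℚ,
      (∀ η : Qb, η ^ p ^ 1 = 1 → σ₀ η = η ^ 2) →
      ∀ (P : Ideal T) (hP : P ∈ minimalPrimes T),
        haveI := RedT83.isPrime_of_mem_minimalPrimes hP
        TraceIdent (pt P H).ρ (V.inertiaSubgroupIn ℚ) (V.decompositionSubgroup ℚ) σ₀) :
    H.ρ.IsOrdinaryAt p := by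
  intro V hV
  obtain ⟨σ₀, hσ₀I, hσ₀⟩ := Fermat.Agent.ES.GAL.InertiaCyclo91.exists_mem_inertia_sq hp hp2 V hV 1
  have hid := traceIdent_of_forall_pt hNS H (V.inertiaSubgroupIn ℚ) (V.decompositionSubgroup ℚ) σ₀
    (h V hV σ₀ hσ₀I hσ₀)
  exact OrdOfIdentSpec92.ordOfIdent H.ρ H.residual_absIrr V σ₀ hσ₀I
    (isUnit_det_sub_one hp hp𝒪 H σ₀ hσ₀) hid

end Fermat.Agent.ORD.Glue.PointsToOrd40
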